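import Fermat.Agent.PadicHodge.Criterion
import Fermat.Agent.PadicHodge.DeRham
import Mathlib.LinearAlgebra.Matrix.Kronecker
import Mathlib.Data.Matrix.Block
import Mathlib.Data.Matrix.ColumnRowPartitioned

/-!
# Stability of de Rham and of Hodge–Tate representations

Quotients, subrepresentations, direct sums, tensor products and duals, in matrices: a morphism is
a matrix intertwining the two representations.
-/

set_option autoImplicit false
set_option linter.unusedSectionVars false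

noncomputable section

open Finset FA.TateSen FA.BDR FA.Sen FA.PadicHodge
open scoped Matrix Kronecker

namespace FA.PadicDescent

variable {p : ℕ} [hp : Fact p.Prime] {d e : Type} [Fintype d] [DecidableEq d] [Fintype e]
  [DecidableEq e]

local notation "Cp" => ℂ_[p]
local notation "G" => PadicAlgCl p ≃ₐ[ℚ_[p]] PadicAlgCl p

/-- The action on matrices over `B_dR`. -/
def actM (σ : G) : Matrix d d (BField p) →+* Matrix d d (BField p) :=
  (MulSemiringAction.toRingHom G (BField p) σ).mapMatrix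

theorem actM_apply (σ : G) (X : Matrix d d (BField p)) : actM σ X = X.map (σ • ·) := rfl

theorem map_qpB_smul {m n : Type} (σ : G) (F : Matrix m n ℚ_[p]) :
    (F.map (qpB p)).map (σ • ·) = F.map (qpB p) := by
  ext i k
  simp only [Matrix.map_apply, smul_qpB]

theorem map_gal_scalar {m n : Type} (σ : G) (F : Matrix m n ℚ_[p]) :
    (F.map (algebraMap ℚ_[p] Cp)).map (gal σ) = F.map (algebraMap ℚ_[p] Cp) := by
  ext i k
  simp only [Matrix.map_apply, gal_scalar]

/-- A spanning family contains the columns of an invertible matrix. -/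
theorem exists_selection {B : Type*} [Field B] {J : Type*} (x : J → d → B)
    (hspan : Submodule.span B (Set.range x) = ⊤) :
    ∃ (a : d → J) (P : (Matrix d d B)ˣ), ∀ i k, (P : Matrix d d B) i k = x (a k) i := by
  obtain ⟨b, hb, hsp, hli⟩ := exists_linearIndependent B (Set.range x)
  let bs := Module.Basis.mk hli (by rw [Subtype.range_coe, hsp, hspan])
  let f : d ≃ b := (Pi.basisFun B d).indexEquiv bs
  choose a ha using fun k => hb (f k).2
  set X : Matrix d d B := Matrix.of fun i k => x (a k) i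
  obtain ⟨P, hP⟩ := Matrix.linearIndependent_cols_iff_isUnit.1
    (show LinearIndependent B X.col by
      rw [show X.col = ((↑) : b → d → B) ∘ f from funext fun k => ha k]
      exact hli.comp f f.injective)
  exact ⟨a, P, fun i k => by rw [hP]; rfl⟩

/-- A representation with a spanning family of invariant vectors is de Rham. -/
theorem isDeRham_of_span {ρ : G → Matrix d d ℚ_[p]} {J : Type*} (x : J → d → BField p)
    (hx : ∀ a, x a ∈ dR ρ) (hspan : Submodule.span (BField p) (Set.range x) = ⊤) :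
    IsDeRham ρ := by
  obtain ⟨a, P, hP⟩ := exists_selection x hspan
  refine ⟨P, fun σ => Matrix.ext fun i k => ?_⟩
  have h1 := congrFun (hx (a k) σ) i
  rw [hP i k, ← h1]
  simp only [actB, Matrix.mulVec, dotProduct, Matrix.mul_apply, Matrix.map_apply, hP]

/-- The image of a spanning family under a surjective matrix spans. -/
theorem span_mulVec_eq_top {B : Type*} [Field B] {J : Type*} {F : Matrix e d B}
    {R : Matrix d e B} (hFR : F * R = 1) (x : J → d → B)
    (hspan : Submodule.span B (Set.range x) = ⊤) :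
    Submodule.span B (Set.range fun a => F *ᵥ x a) = ⊤ := by
  rw [show (fun a => F *ᵥ x a) = F.mulVecLin ∘ x from rfl, Set.range_comp,
    ← Submodule.map_span, hspan, Submodule.map_top, LinearMap.range_eq_top]
  exact fun y => ⟨R *ᵥ y, by rw [Matrix.mulVecLin_apply, Matrix.mulVec_mulVec, hFR,
    Matrix.one_mulVec]⟩

theorem span_cols_unit {B : Type*} [Field B] (P : (Matrix d d B)ˣ) :
    Submodule.span B (Set.range (P : Matrix d d B).col) = ⊤ := by
  refine eq_top_iff.2 fun y _ => ?_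
  obtain ⟨c, rfl⟩ := Matrix.mulVec_surjective_iff_isUnit.2 P.isUnit y
  rw [← Matrix.range_mulVecLin]
  exact ⟨c, rfl⟩

/-- **A quotient of a de Rham representation is de Rham.** -/
theorem isDeRham_quotient {ρ : G → Matrix d d ℚ_[p]} {ρ' : G → Matrix e e ℚ_[p]}
    {F : Matrix e d ℚ_[p]} {R : Matrix d e ℚ_[p]} (hFR : F * R = 1)
    (hF : ∀ σ, F * ρ σ = ρ' σ * F) (h : IsDeRham ρ) : IsDeRham ρ' := by
  obtain ⟨X, hX⟩ := h
  refine isDeRham_of_span (fun k => F.map (qpB p) *ᵥ (X : Matrix d d (BField p)).col k)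
    (fun k σ => ?_) (span_mulVec_eq_top (R := R.map (qpB p))
      (by rw [← Matrix.map_mul, hFR, Matrix.map_one _ (map_zero _) (map_one _)]) _
      (span_cols_unit X))
  have hk : actB ρ σ ((X : Matrix d d (BField p)).col k) = (X : Matrix d d (BField p)).col k :=
    funext fun i => congrFun (congrFun (hX σ) i) k
  have hs : (fun i => σ • (F.map (qpB p) *ᵥ (X : Matrix d d (BField p)).col k) i) =
      F.map (qpB p) *ᵥ fun i => σ • (X : Matrix d d (BField p)).col k i := funext fun i => by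
    rw [← MulSemiringAction.toRingHom_apply, RingHom.map_mulVec]
    conv_rhs => rw [← map_qpB_smul σ F]
    rfl
  rw [actB, hs, Matrix.mulVec_mulVec, ← Matrix.map_mul, ← hF, Matrix.map_mul,
    ← Matrix.mulVec_mulVec]
  rw [actB] at hk
  rw [hk]

/-- **A quotient of a Hodge–Tate representation is Hodge–Tate.** -/
theorem isHodgeTate_quotient {U : G → Matrix d d Cp} {U' : G → Matrix e e Cp}
    {F : Matrix e d Cp} {R : Matrix d e Cp} (hFR : F * R = 1)
    (hF : ∀ σ, F * U σ = U' σ * F.map (gal σ)) (h : IsHodgeTate U) : IsHodgeTate U' := by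
  obtain ⟨P, j, hP⟩ := h
  refine isHodgeTate_of_span (fun k => -j k) (fun k => F *ᵥ (P : Matrix d d Cp).col k)
    (fun k σ => ?_) (span_mulVec_eq_top hFR _ (span_cols_unit P))
  have hk : (U σ *ᵥ fun i => gal σ ((P : Matrix d d Cp).col k i)) =
      twist p (j k) σ • (P : Matrix d d Cp).col k := funext fun i => by
    have h1 := congrFun (congrFun (FA.Sen.conj_eq_iff.1 (hP σ)) i) k
    rw [Matrix.mul_diagonal, mul_comm ((P : Matrix d d Cp) i k)] at h1
    exact h1
  have hs : (fun i => gal σ ((F *ᵥ (P : Matrix d d Cp).col k) i)) =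
      F.map (gal σ) *ᵥ fun i => gal σ ((P : Matrix d d Cp).col k i) :=
    funext fun i => RingHom.map_mulVec (gal σ) F _ i
  rw [actC, hs, Matrix.mulVec_mulVec, ← hF, ← Matrix.mulVec_mulVec, hk, Matrix.mulVec_smul,
    smul_smul, twist_inv_mul, one_smul]

/-- The dual representation. -/
def dualRep (ρ : G → Matrix d d ℚ_[p]) (σ : G) : Matrix d d ℚ_[p] := (ρ σ⁻¹)ᵀ

theorem isQpRep_dualRep {ρ : G → Matrix d d ℚ_[p]} (hρ : IsQpRep p d ρ) :
    IsQpRep p d (dualRep ρ) where
  cont := (hρ.cont.comp continuous_inv).matrix_transpose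
  map_one := by rw [dualRep, inv_one, hρ.map_one, Matrix.transpose_one]
  map_mul σ τ := by rw [dualRep, dualRep, dualRep, mul_inv_rev, hρ.map_mul, Matrix.transpose_mul]

theorem dualRep_dualRep (ρ : G → Matrix d d ℚ_[p]) : dualRep (dualRep ρ) = ρ := by
  funext σ
  rw [dualRep, dualRep, inv_inv, Matrix.transpose_transpose]

theorem inv_mul_rep {ρ : G → Matrix d d ℚ_[p]} (hρ : IsQpRep p d ρ) (σ : G) :
    ρ σ⁻¹ * ρ σ = 1 := by rw [← hρ.map_mul, inv_mul_cancel, hρ.map_one]

/-- The transpose of the inverse. -/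
def transInv {B : Type*} [CommRing B] (P : (Matrix d d B)ˣ) : (Matrix d d B)ˣ :=
  ⟨(↑P⁻¹ : Matrix d d B)ᵀ, (P : Matrix d d B)ᵀ,
    by rw [← Matrix.transpose_mul, Units.mul_inv, Matrix.transpose_one],
    by rw [← Matrix.transpose_mul, Units.inv_mul, Matrix.transpose_one]⟩

/-- **The dual of a de Rham representation is de Rham.** -/
theorem isDeRham_dual {ρ : G → Matrix d d ℚ_[p]} (hρ : IsQpRep p d ρ) (h : IsDeRham ρ) :
    IsDeRham (dualRep ρ) := by
  obtain ⟨X, hX⟩ := h
  refine ⟨transInv X, fun σ => ?_⟩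
  set A : Matrix d d (BField p) := (ρ σ⁻¹).map (qpB p)
  have h1 : actM σ (X : Matrix d d (BField p)) = A * X := by
    conv_rhs => rw [← hX σ]
    rw [← mul_assoc, ← Matrix.map_mul, inv_mul_rep hρ, Matrix.map_one _ (map_zero _) (map_one _),
      one_mul, actM_apply]
  have h2 : actM σ (↑X⁻¹ : Matrix d d (BField p)) * A * X = 1 := by
    rw [mul_assoc, ← h1, ← map_mul, Units.inv_mul, map_one]
  have h3 := left_inv_eq_right_inv h2 X.mul_inv
  simp only [transInv, dualRep]
  rw [Matrix.transpose_map, Matrix.transpose_map, ← Matrix.transpose_mul]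
  exact congrArg Matrix.transpose h3

/-- A Hodge–Tate basis of the dual. -/
theorem conj_dual {ρ : G → Matrix d d ℚ_[p]} (hρ : IsQpRep p d ρ) {P : (Matrix d d Cp)ˣ}
    {j : d → ℤ}
    (hP : ∀ σ, FA.Sen.conj (cpRep ρ) P σ = Matrix.diagonal fun i => twist p (j i) σ) (σ : G) :
    FA.Sen.conj (cpRep (dualRep ρ)) (transInv P) σ =
      Matrix.diagonal fun i => twist p (-j i) σ := by
  set A : Matrix d d Cp := cpRep ρ σ⁻¹
  set D : Matrix d d Cp := Matrix.diagonal fun i => twist p (j i) σ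
  set D' : Matrix d d Cp := Matrix.diagonal fun i => twist p (-j i) σ
  have hA : A * cpRep ρ σ = 1 := by
    rw [show A = (ρ σ⁻¹).map (algebraMap ℚ_[p] Cp) from rfl, cpRep, ← Matrix.map_mul,
      inv_mul_rep hρ, Matrix.map_one _ (map_zero _) (map_one _)]
  have h1 : galM σ (P : Matrix d d Cp) = A * P * D := by
    rw [mul_assoc, ← FA.Sen.conj_eq_iff.1 (hP σ), ← mul_assoc, hA, one_mul]
  have hD : D * D' = 1 := by
    simp only [D, D', Matrix.diagonal_mul_diagonal]
    simp only [mul_comm (twist p (j _) σ), twist_inv_mul, Matrix.diagonal_one]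
  have h2 : galM σ (↑P⁻¹ : Matrix d d Cp) * A * P = D' := by
    have h3 : galM σ (↑P⁻¹ : Matrix d d Cp) * A * P * D = 1 := by
      rw [mul_assoc (galM σ _ * A), mul_assoc (galM σ _), ← mul_assoc A, ← h1, ← map_mul,
        Units.inv_mul, map_one]
    exact left_inv_eq_right_inv h3 hD
  rw [FA.Sen.conj_eq_iff]
  have h4 : galM σ (↑P⁻¹ : Matrix d d Cp) * A = D' * (↑P⁻¹ : Matrix d d Cp) := by
    rw [← h2, mul_assoc (galM σ _ * A), Units.mul_inv, mul_one]
  have h5 := congrArg Matrix.transpose h4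
  rw [Matrix.transpose_mul, Matrix.transpose_mul, show D'ᵀ = D' from Matrix.diagonal_transpose _]
    at h5
  exact h5

/-- **The dual of a Hodge–Tate representation is Hodge–Tate.** -/
theorem isHodgeTate_dual {ρ : G → Matrix d d ℚ_[p]} (hρ : IsQpRep p d ρ)
    (h : IsHodgeTate (cpRep ρ)) : IsHodgeTate (cpRep (dualRep ρ)) := by
  obtain ⟨P, j, hP⟩ := h
  exact ⟨transInv P, fun i => -j i, conj_dual hρ hP⟩

theorem intertwine_dual {ρ : G → Matrix d d ℚ_[p]} {ρ' : G → Matrix e e ℚ_[p]}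
    {F : Matrix d e ℚ_[p]} (hF : ∀ σ, ρ σ * F = F * ρ' σ) (σ : G) :
    Fᵀ * dualRep ρ σ = dualRep ρ' σ * Fᵀ := by
  rw [dualRep, dualRep, ← Matrix.transpose_mul, ← Matrix.transpose_mul, hF]

theorem intertwine_cp {ρ : G → Matrix d d ℚ_[p]} {ρ' : G → Matrix e e ℚ_[p]}
    {F : Matrix e d ℚ_[p]} (hF : ∀ σ, F * ρ σ = ρ' σ * F) (σ : G) :
    F.map (algebraMap ℚ_[p] Cp) * cpRep ρ σ =
      cpRep ρ' σ * (F.map (algebraMap ℚ_[p] Cp)).map (gal σ) := by
  rw [map_gal_scalar, cpRep, cpRep, ← Matrix.map_mul, ← Matrix.map_mul, hF]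

/-- **A quotient of a Hodge–Tate representation of `ℚ_p` is Hodge–Tate.** -/
theorem isHodgeTate_cp_quotient {ρ : G → Matrix d d ℚ_[p]} {ρ' : G → Matrix e e ℚ_[p]}
    {F : Matrix e d ℚ_[p]} {R : Matrix d e ℚ_[p]} (hFR : F * R = 1)
    (hF : ∀ σ, F * ρ σ = ρ' σ * F) (h : IsHodgeTate (cpRep ρ)) : IsHodgeTate (cpRep ρ') :=
  isHodgeTate_quotient (R := R.map (algebraMap ℚ_[p] Cp))
    (by rw [← Matrix.map_mul, hFR, Matrix.map_one _ (map_zero _) (map_one _)])
    (intertwine_cp hF) h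

/-- **A subrepresentation of a de Rham representation is de Rham.** -/
theorem isDeRham_sub {ρ : G → Matrix d d ℚ_[p]} {ρ' : G → Matrix e e ℚ_[p]}
    (hρ : IsQpRep p d ρ) (hρ' : IsQpRep p e ρ') {F : Matrix d e ℚ_[p]} {L : Matrix e d ℚ_[p]}
    (hLF : L * F = 1) (hF : ∀ σ, ρ σ * F = F * ρ' σ) (h : IsDeRham ρ) : IsDeRham ρ' := by
  have h1 := isDeRham_quotient (R := Lᵀ)
    (by rw [← Matrix.transpose_mul, hLF, Matrix.transpose_one]) (intertwine_dual hF)
    (isDeRham_dual hρ h)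
  rw [← dualRep_dualRep ρ']
  exact isDeRham_dual (isQpRep_dualRep hρ') h1

/-- **A subrepresentation of a Hodge–Tate representation is Hodge–Tate.** -/
theorem isHodgeTate_sub {ρ : G → Matrix d d ℚ_[p]} {ρ' : G → Matrix e e ℚ_[p]}
    (hρ : IsQpRep p d ρ) (hρ' : IsQpRep p e ρ') {F : Matrix d e ℚ_[p]} {L : Matrix e d ℚ_[p]}
    (hLF : L * F = 1) (hF : ∀ σ, ρ σ * F = F * ρ' σ) (h : IsHodgeTate (cpRep ρ)) :
    IsHodgeTate (cpRep ρ') := by
  have h1 := isHodgeTate_cp_quotient (R := Lᵀ)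
    (by rw [← Matrix.transpose_mul, hLF, Matrix.transpose_one]) (intertwine_dual hF)
    (isHodgeTate_dual hρ h)
  rw [← dualRep_dualRep ρ']
  exact isHodgeTate_dual (isQpRep_dualRep hρ') h1

/-- The tensor product. -/
def tensRep (ρ : G → Matrix d d ℚ_[p]) (ρ' : G → Matrix e e ℚ_[p]) (σ : G) :
    Matrix (d × e) (d × e) ℚ_[p] :=
  ρ σ ⊗ₖ ρ' σ

theorem isQpRep_tensRep {ρ : G → Matrix d d ℚ_[p]} {ρ' : G → Matrix e e ℚ_[p]}
    (hρ : IsQpRep p d ρ) (hρ' : IsQpRep p e ρ') : IsQpRep p (d × e) (tensRep ρ ρ') where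
  cont := continuous_matrix fun a b =>
    ((continuous_apply_apply a.1 b.1).comp hρ.cont).mul
      ((continuous_apply_apply a.2 b.2).comp hρ'.cont)
  map_one := by rw [tensRep, hρ.map_one, hρ'.map_one, Matrix.one_kronecker_one]
  map_mul σ τ := by
    rw [tensRep, tensRep, tensRep, hρ.map_mul, hρ'.map_mul, Matrix.mul_kronecker_mul]

theorem kronecker_map {R S : Type*} [CommSemiring R] [CommSemiring S] (f : R →+* S)
    {m n m' n' : Type} (A : Matrix m n R) (B : Matrix m' n' R) :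
    (A ⊗ₖ B).map f = A.map f ⊗ₖ B.map f := by
  ext a b
  simp only [Matrix.map_apply, Matrix.kroneckerMap_apply, map_mul]

/-- The Kronecker product of two invertible matrices. -/
def kronUnit {B : Type*} [CommRing B] (P : (Matrix d d B)ˣ) (Q : (Matrix e e B)ˣ) :
    (Matrix (d × e) (d × e) B)ˣ :=
  ⟨(P : Matrix d d B) ⊗ₖ (Q : Matrix e e B), (↑P⁻¹ : Matrix d d B) ⊗ₖ (↑Q⁻¹ : Matrix e e B),
    by rw [← Matrix.mul_kronecker_mul, Units.mul_inv, Units.mul_inv, Matrix.one_kronecker_one],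
    by rw [← Matrix.mul_kronecker_mul, Units.inv_mul, Units.inv_mul, Matrix.one_kronecker_one]⟩

/-- **The tensor product of de Rham representations is de Rham.** -/
theorem isDeRham_tens {ρ : G → Matrix d d ℚ_[p]} {ρ' : G → Matrix e e ℚ_[p]}
    (h : IsDeRham ρ) (h' : IsDeRham ρ') : IsDeRham (tensRep ρ ρ') := by
  obtain ⟨X, hX⟩ := h
  obtain ⟨Y, hY⟩ := h'
  refine ⟨kronUnit X Y, fun σ => ?_⟩
  have e2 := kronecker_map (MulSemiringAction.toRingHom G (BField p) σ)
    (X : Matrix d d (BField p)) (Y : Matrix e e (BField p))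
  simp only [kronUnit, tensRep, kronecker_map (qpB p)]
  rw [show ((X : Matrix d d (BField p)) ⊗ₖ (Y : Matrix e e (BField p))).map (σ • ·) =
    (X : Matrix d d (BField p)).map (σ • ·) ⊗ₖ (Y : Matrix e e (BField p)).map (σ • ·) from e2,
    ← Matrix.mul_kronecker_mul, hX σ, hY σ]

/-- A Hodge–Tate basis of the tensor product: the weights add. -/
theorem conj_tens {ρ : G → Matrix d d ℚ_[p]} {ρ' : G → Matrix e e ℚ_[p]} {P : (Matrix d d Cp)ˣ}
    {Q : (Matrix e e Cp)ˣ} {j : d → ℤ} {k : e → ℤ}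
    (hP : ∀ σ, FA.Sen.conj (cpRep ρ) P σ = Matrix.diagonal fun i => twist p (j i) σ)
    (hQ : ∀ σ, FA.Sen.conj (cpRep ρ') Q σ = Matrix.diagonal fun i => twist p (k i) σ) (σ : G) :
    FA.Sen.conj (cpRep (tensRep ρ ρ')) (kronUnit P Q) σ =
      Matrix.diagonal fun a => twist p (j a.1 + k a.2) σ := by
  rw [FA.Sen.conj_eq_iff]
  simp only [kronUnit, cpRep, tensRep, kronecker_map (algebraMap ℚ_[p] Cp), galM,
    RingHom.mapMatrix_apply, kronecker_map (gal σ)]
  rw [← Matrix.mul_kronecker_mul]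
  have h1 := FA.Sen.conj_eq_iff.1 (hP σ)
  have h2 := FA.Sen.conj_eq_iff.1 (hQ σ)
  simp only [galM, RingHom.mapMatrix_apply, cpRep] at h1 h2
  rw [h1, h2, Matrix.mul_kronecker_mul, Matrix.diagonal_kronecker_diagonal]
  simp only [twist_add]

/-- **The tensor product of Hodge–Tate representations is Hodge–Tate.** -/
theorem isHodgeTate_tens {ρ : G → Matrix d d ℚ_[p]} {ρ' : G → Matrix e e ℚ_[p]}
    (h : IsHodgeTate (cpRep ρ)) (h' : IsHodgeTate (cpRep ρ')) :
    IsHodgeTate (cpRep (tensRep ρ ρ')) := by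
  obtain ⟨P, j, hP⟩ := h
  obtain ⟨Q, k, hQ⟩ := h'
  exact ⟨kronUnit P Q, _, conj_tens hP hQ⟩

/-- The direct sum. -/
def sumRep (ρ : G → Matrix d d ℚ_[p]) (ρ' : G → Matrix e e ℚ_[p]) (σ : G) :
    Matrix (d ⊕ e) (d ⊕ e) ℚ_[p] :=
  Matrix.fromBlocks (ρ σ) 0 0 (ρ' σ)

/-- Two invertible blocks. -/
def blockUnit {B : Type*} [CommRing B] (P : (Matrix d d B)ˣ) (Q : (Matrix e e B)ˣ) :
    (Matrix (d ⊕ e) (d ⊕ e) B)ˣ :=
  ⟨Matrix.fromBlocks P 0 0 Q, Matrix.fromBlocks (↑P⁻¹ : Matrix d d B) 0 0 (↑Q⁻¹ : Matrix e e B),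
    by simp [Matrix.fromBlocks_multiply, Matrix.fromBlocks_one],
    by simp [Matrix.fromBlocks_multiply, Matrix.fromBlocks_one]⟩

theorem proj_left (ρ : G → Matrix d d ℚ_[p]) (ρ' : G → Matrix e e ℚ_[p]) (σ : G) :
    Matrix.fromCols (1 : Matrix d d ℚ_[p]) (0 : Matrix d e ℚ_[p]) * sumRep ρ ρ' σ =
      ρ σ * Matrix.fromCols (1 : Matrix d d ℚ_[p]) (0 : Matrix d e ℚ_[p]) := by
  rw [sumRep, Matrix.fromCols_mul_fromBlocks, Matrix.mul_fromCols]
  simp

theorem proj_right (ρ : G → Matrix d d ℚ_[p]) (ρ' : G → Matrix e e ℚ_[p]) (σ : G) :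
    Matrix.fromCols (0 : Matrix e d ℚ_[p]) (1 : Matrix e e ℚ_[p]) * sumRep ρ ρ' σ =
      ρ' σ * Matrix.fromCols (0 : Matrix e d ℚ_[p]) (1 : Matrix e e ℚ_[p]) := by
  rw [sumRep, Matrix.fromCols_mul_fromBlocks, Matrix.mul_fromCols]
  simp

theorem proj_left_inv :
    Matrix.fromCols (1 : Matrix d d ℚ_[p]) (0 : Matrix d e ℚ_[p]) *
      Matrix.fromRows (1 : Matrix d d ℚ_[p]) (0 : Matrix e d ℚ_[p]) = 1 := by
  rw [Matrix.fromCols_mul_fromRows]; simp

theorem proj_right_inv :
    Matrix.fromCols (0 : Matrix e d ℚ_[p]) (1 : Matrix e e ℚ_[p]) *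
      Matrix.fromRows (0 : Matrix d e ℚ_[p]) (1 : Matrix e e ℚ_[p]) = 1 := by
  rw [Matrix.fromCols_mul_fromRows]; simp

/-- **A direct sum is de Rham exactly when both summands are.** -/
theorem isDeRham_sum {ρ : G → Matrix d d ℚ_[p]} {ρ' : G → Matrix e e ℚ_[p]} :
    IsDeRham (sumRep ρ ρ') ↔ IsDeRham ρ ∧ IsDeRham ρ' := by
  refine ⟨fun h => ⟨isDeRham_quotient proj_left_inv (proj_left ρ ρ') h,
    isDeRham_quotient proj_right_inv (proj_right ρ ρ') h⟩, fun ⟨⟨X, hX⟩, ⟨Y, hY⟩⟩ => ?_⟩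
  refine ⟨blockUnit X Y, fun σ => ?_⟩
  simp only [blockUnit, sumRep, Matrix.fromBlocks_map, Matrix.map_zero _ (map_zero (qpB p)),
    Matrix.map_zero _ (smul_zero σ), Matrix.fromBlocks_multiply, Matrix.mul_zero, Matrix.zero_mul,
    add_zero, zero_add, hX σ, hY σ]

/-- A Hodge–Tate basis of the direct sum. -/
theorem conj_sum {ρ : G → Matrix d d ℚ_[p]} {ρ' : G → Matrix e e ℚ_[p]} {P : (Matrix d d Cp)ˣ}
    {Q : (Matrix e e Cp)ˣ} {j : d → ℤ} {k : e → ℤ}
    (hP : ∀ σ, FA.Sen.conj (cpRep ρ) P σ = Matrix.diagonal fun i => twist p (j i) σ)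
    (hQ : ∀ σ, FA.Sen.conj (cpRep ρ') Q σ = Matrix.diagonal fun i => twist p (k i) σ) (σ : G) :
    FA.Sen.conj (cpRep (sumRep ρ ρ')) (blockUnit P Q) σ =
      Matrix.diagonal fun a => twist p (Sum.elim j k a) σ := by
  rw [FA.Sen.conj_eq_iff]
  have h1 := FA.Sen.conj_eq_iff.1 (hP σ)
  have h2 := FA.Sen.conj_eq_iff.1 (hQ σ)
  simp only [galM, RingHom.mapMatrix_apply, cpRep] at h1 h2
  rw [show (Matrix.diagonal fun a => twist p (Sum.elim j k a) σ) =
    Matrix.fromBlocks (Matrix.diagonal fun i => twist p (j i) σ) 0 0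
      (Matrix.diagonal fun i => twist p (k i) σ) by
    rw [Matrix.fromBlocks_diagonal]
    exact congrArg Matrix.diagonal (funext fun x => by cases x <;> rfl)]
  simp only [blockUnit, cpRep, sumRep, galM, RingHom.mapMatrix_apply, Matrix.fromBlocks_map,
    Matrix.map_zero _ (map_zero (gal σ)), Matrix.map_zero _ (map_zero (algebraMap ℚ_[p] Cp)),
    Matrix.fromBlocks_multiply, Matrix.mul_zero, Matrix.zero_mul, add_zero, zero_add, h1, h2]

/-- **A direct sum is Hodge–Tate exactly when both summands are.** -/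
theorem isHodgeTate_sum {ρ : G → Matrix d d ℚ_[p]} {ρ' : G → Matrix e e ℚ_[p]} :
    IsHodgeTate (cpRep (sumRep ρ ρ')) ↔ IsHodgeTate (cpRep ρ) ∧ IsHodgeTate (cpRep ρ') := by
  refine ⟨fun h => ⟨isHodgeTate_cp_quotient proj_left_inv (proj_left ρ ρ') h,
    isHodgeTate_cp_quotient proj_right_inv (proj_right ρ ρ') h⟩, ?_⟩
  rintro ⟨⟨P, j, hP⟩, Q, k, hQ⟩
  exact ⟨blockUnit P Q, _, conj_sum hP hQ⟩

/-- **The weights are determined by the dimensions of the invariants.** -/
theorem card_weight_eq {U : G → Matrix d d Cp} {P : (Matrix d d Cp)ˣ} {j : d → ℤ}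
    (hP : ∀ σ, FA.Sen.conj U P σ = Matrix.diagonal fun i => twist p (j i) σ) (v : ℤ) :
    (univ.filter fun i => j i = v).card = Module.finrank ℚ_[p] (dHT U (-v)) := by
  classical
  have hmem : ∀ k, (P : Matrix d d Cp).col k ∈ dHT U (-j k) := fun k σ => funext fun i => by
    have h1 := congrFun (congrFun (FA.Sen.conj_eq_iff.1 (hP σ)) i) k
    rw [Matrix.mul_diagonal] at h1
    change twist p (-j k) σ * (U σ * galM σ (P : Matrix d d Cp)) i k = (P : Matrix d d Cp) i k
    rw [h1, mul_comm ((P : Matrix d d Cp) i k), ← mul_assoc, twist_inv_mul, one_mul]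
  have hli : LinearIndependent ℚ_[p] (P : Matrix d d Cp).col :=
    (Matrix.linearIndependent_cols_iff_isUnit.2 P.isUnit).restrict_scalars
      (by
        intro a b hab
        exact (algebraMap ℚ_[p] Cp).injective (by simpa [Algebra.smul_def] using hab))
  have hle : ∀ w, (univ.filter fun i => -j i = w).card ≤ Module.finrank ℚ_[p] (dHT U w) :=
    fun w => by
    have hj : LinearIndependent ℚ_[p] fun k : {i // i ∈ univ.filter fun i => -j i = w} =>
        (⟨(P : Matrix d d Cp).col k,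
          by simpa only [(mem_filter.1 k.2).2] using hmem k⟩ : dHT U w) :=
      LinearIndependent.of_comp (dHT U w).subtype (hli.comp _ Subtype.val_injective)
    have hc := hj.fintype_card_le_finrank
    rwa [Fintype.card_coe] at hc
  set s := insert (-v) (univ.image fun i => -j i)
  have hsum : ∑ w ∈ s, (univ.filter fun i => -j i = w).card = Fintype.card d := by
    rw [← card_univ, ← card_eq_sum_card_fiberwise fun i _ =>
      mem_insert_of_mem (mem_image_of_mem _ (mem_univ i))]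
  have heq := (sum_eq_sum_iff_of_le fun w _ => hle w).1
    (le_antisymm (sum_le_sum fun w _ => hle w)
      ((sum_finrank_dHT_le U s).trans_eq hsum.symm)) (-v) (mem_insert_self _ _)
  rw [← heq]
  simp only [neg_inj]

end FA.PadicDescent
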