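import Fermat.Agent.PadicDescent.Embedding
import Fermat.Agent.PadicDescent.Functorial

/-!
# Potentially de Rham representations are de Rham

Hilbert 90 for the invertible matrices descends an invariant basis from an open subgroup, and so
does Tate's vanishing theorem for Hodge–Tate bases.
-/

set_option autoImplicit false
set_option linter.unusedSectionVars false

noncomputable section

open Finset FA.TateSen FA.BDR FA.Sen FA.PadicHodge
open scoped Matrix

namespace FA.PadicDescent

variable {p : ℕ} [hp : Fact p.Prime] {d : Type} [Fintype d] [DecidableEq d]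

local notation "Cp" => ℂ_[p]
local notation "Ω" => PadicAlgCl p
local notation "G" => PadicAlgCl p ≃ₐ[ℚ_[p]] PadicAlgCl p
local notation "ι" => algebraMap (BPlus p) (BField p)
local notation "Md" => Matrix d d ℂ_[p]

variable (p) in
/-- `Q̄_p` in `B_dR`. -/
def embB : Ω →+* BField p := (algebraMap (BPlus p) (BField p)).comp (emb p)

theorem smul_embB (σ : G) (x : Ω) : σ • embB p x = embB p (σ x) := by
  rw [embB, RingHom.comp_apply, RingHom.comp_apply, smul_algebraMap_bfield, smul_emb]

theorem actM_mul (σ τ : G) (X : Matrix d d (BField p)) :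
    actM (σ * τ) X = actM σ (actM τ X) :=
  Matrix.ext fun i k => mul_smul σ τ (X i k)

/-- A function right invariant under an open subgroup is continuous. -/
theorem continuous_of_right_invariant {X : Type*} [TopologicalSpace X] {f : G → X}
    {V : Subgroup G} (hV : IsOpen (V : Set G)) (h : ∀ g, ∀ v ∈ V, f (g * v) = f g) :
    Continuous f := by
  refine continuous_iff_continuousAt.2 fun g => ?_
  refine (continuousAt_const (y := f g)).congr ?_
  have hmem : (fun x => g⁻¹ * x) ⁻¹' (V : Set G) ∈ nhds g :=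
    (hV.preimage (continuous_const.mul continuous_id)).mem_nhds (by simp [V.one_mem])
  filter_upwards [hmem] with x hx
  rw [← h g _ hx, mul_inv_cancel_left]

/-- **Hilbert 90 for `GL_d (Q̄_p)`.** -/
theorem exists_algebraic_basis {K : G → Matrix d d Ω} {V : Subgroup G} [V.Normal]
    (hV : IsOpen (V : Set G)) (hmul : ∀ g h, K (g * h) = K g * (K h).map g)
    (h1 : ∀ v ∈ V, K v = 1) :
    ∃ R : (Matrix d d Ω)ˣ, ∀ g : G, K g * (R : Matrix d d Ω).map g = R := by
  set c : Ω →+* Cp := algebraMap Ω Cp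
  have hc : ∀ x : Ω, c x = (x : Cp) := fun x => (PadicComplex.coe_eq p x).symm
  have hright : ∀ g, ∀ v ∈ V, K (g * v) = K g := fun g v hv => by
    rw [hmul, h1 v hv, Matrix.map_one _ (map_zero g) (map_one g), mul_one]
  set W : G → Md := fun g => (K g).map c
  have hgal : ∀ (g : G) (M : Matrix d d Ω), galM g (M.map c) = (M.map g).map c := fun g M =>
    Matrix.ext fun i k => by
      simp only [galM, RingHom.mapMatrix_apply, Matrix.map_apply, hc, gal_coe]
  have hW : IsRep p d W :=
    { cont := continuous_of_right_invariant hV fun g v hv => by simp only [W, hright g v hv]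
      map_one := by simp only [W, h1 1 V.one_mem, Matrix.map_one _ (map_zero c) (map_one c)]
      cocycle := fun g h => by simp only [W, hgal, hmul, Matrix.map_mul] }
  obtain ⟨P, hP⟩ := exists_invariant_of_open hW hV fun v hv => by
    simp only [W, h1 v hv, Matrix.map_one _ (map_zero c) (map_one c)]
  have hfix : ∀ v ∈ V, galM v (P : Md) = P := fun v hv => by
    have h2 := FA.Sen.conj_eq_one_iff.1 (hP v)
    rwa [show W v = 1 by simp only [W, h1 v hv, Matrix.map_one _ (map_zero c) (map_one c)],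
      one_mul] at h2
  choose R _ hR using fun i k => exists_coe_of_fixed V hV (z := (P : Md) i k) fun v hv => by
    rw [← galM_apply]; exact congrFun (congrFun (hfix v hv) i) k
  have hRP : (Matrix.of R).map c = (P : Md) :=
    Matrix.ext fun i k => (hc _).trans (hR i k)
  obtain ⟨U, hU⟩ : IsUnit (Matrix.of R) := by
    refine (Matrix.isUnit_iff_isUnit_det _).2 (isUnit_iff_ne_zero.2 fun h0 => ?_)
    refine ((Matrix.isUnit_iff_isUnit_det _).1 P.isUnit).ne_zero ?_
    rw [← hRP, ← RingHom.mapMatrix_apply, ← RingHom.map_det, h0, map_zero]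
  refine ⟨U, fun g => Matrix.map_injective (f := ⇑c) c.injective ?_⟩
  have h2 : W g * galM g (P : Md) = P := FA.Sen.conj_eq_one_iff.1 (hP g)
  rw [← hRP, hgal] at h2
  rw [hU]
  simp only [W] at h2
  rw [← Matrix.map_mul] at h2
  exact h2

/-- **A basis invariant under an open subgroup gives one invariant under the whole group.** -/
theorem isDeRham_of_open {ρ : G → Matrix d d ℚ_[p]} (hρ : IsQpRep p d ρ) {U : Subgroup G}
    (hU : IsOpen (U : Set G)) {X : (Matrix d d (BField p))ˣ}
    (hX : ∀ σ ∈ U, (ρ σ).map (qpB p) * (X : Matrix d d (BField p)).map (σ • ·) = X) :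
    IsDeRham ρ := by
  obtain ⟨V, _, hV, hVU⟩ := exists_open_normal_subset (hU.mem_nhds U.one_mem)
  set c : G → Matrix d d (BField p) := fun g =>
    (↑X⁻¹ : Matrix d d (BField p)) * (ρ g).map (qpB p) * actM g (X : Matrix d d (BField p))
    with hc
  have hfixρ : ∀ g h : G, actM g ((ρ h).map (qpB p)) = (ρ h).map (qpB p) := fun g h =>
    map_qpB_smul g (ρ h)
  have hcm : ∀ g h, c (g * h) = c g * actM g (c h) := fun g h => by
    simp only [hc, map_mul, hfixρ, actM_mul, hρ.map_mul, Matrix.map_mul, mul_assoc]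
    rw [← mul_assoc (actM g (X : Matrix d d (BField p))), ← map_mul, Units.mul_inv, map_one,
      one_mul]
  have hc1 : ∀ v ∈ V, c v = 1 := fun v hv => by
    simp only [hc, mul_assoc, actM_apply, hX v (hVU v hv), Units.inv_mul]
  have hcv : ∀ g, ∀ v ∈ V, actM v (c g) = c g := fun g v hv => by
    have h2 := hcm v g
    rw [hc1 v hv, one_mul] at h2
    have hv' : g⁻¹ * v * g ∈ V := by simpa [mul_assoc] using (‹V.Normal›).conj_mem v hv g⁻¹
    rw [← h2, show v * g = g * (g⁻¹ * v * g) by group, hcm, hc1 (g⁻¹ * v * g) hv', map_one,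
      mul_one]
  choose K _ hK using fun g i k => (bField_fixed_iff V hV (c g i k)).1
    fun v hv => congrFun (congrFun (hcv g v hv) i) k
  have hKc : ∀ g, (Matrix.of (K g)).map (embB p) = c g := fun g => Matrix.ext (hK g)
  have hsm : ∀ (g : G) (M : Matrix d d Ω), actM g (M.map (embB p)) = (M.map g).map (embB p) :=
    fun g M => Matrix.ext fun i k => smul_embB g (M i k)
  obtain ⟨R, hR⟩ := exists_algebraic_basis (K := fun g => Matrix.of (K g)) hV
    (fun g h => Matrix.map_injective (embB p).injective (by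
      change (Matrix.of (K (g * h))).map (embB p) =
        (Matrix.of (K g) * (Matrix.of (K h)).map g).map (embB p)
      rw [Matrix.map_mul, ← hsm, hKc, hKc, hKc, hcm]))
    fun v hv => Matrix.map_injective (embB p).injective (by
      change (Matrix.of (K v)).map (embB p) = (1 : Matrix d d Ω).map (embB p)
      rw [hKc, hc1 v hv, Matrix.map_one _ (map_zero _) (map_one _)])
  refine ⟨X * Units.map ((embB p).mapMatrix (m := d)).toMonoidHom R, fun σ => ?_⟩
  have h3 := congrArg (fun M : Matrix d d Ω => (X : Matrix d d (BField p)) * M.map (embB p)) (hR σ)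
  simp only [Matrix.map_mul, hKc, ← hsm, hc, mul_assoc, Units.mul_inv_cancel_left,
    ← map_mul (actM σ)] at h3
  rw [← actM_apply]
  exact h3

/-- **Potentially de Rham is de Rham.** -/
theorem isDeRham_iff_potentially {ρ : G → Matrix d d ℚ_[p]} (hρ : IsQpRep p d ρ) :
    IsDeRham ρ ↔ ∃ U : Subgroup G, IsOpen (U : Set G) ∧ ∃ X : (Matrix d d (BField p))ˣ,
      ∀ σ ∈ U, (ρ σ).map (qpB p) * (X : Matrix d d (BField p)).map (σ • ·) = X :=
  ⟨fun ⟨X, hX⟩ => ⟨⊤, isOpen_univ, X, fun σ _ => hX σ⟩,
    fun ⟨_, hU, _, hX⟩ => isDeRham_of_open hρ hU hX⟩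

/-- **A Hodge–Tate basis for an open subgroup gives one for the whole group.** -/
theorem isHodgeTate_of_open {U : G → Md} (hU : IsRep p d U) {S : Subgroup G}
    (hS : IsOpen (S : Set G)) {P : Mdˣ} {j : d → ℤ}
    (hP : ∀ σ ∈ S, FA.Sen.conj U P σ = Matrix.diagonal fun i => twist p (j i) σ) :
    IsHodgeTate U := by
  obtain ⟨V, _, hV, hVS⟩ := exists_open_normal_subset (hS.mem_nhds S.one_mem)
  set U₁ := FA.Sen.conj U P
  have hU₁ : IsRep p d U₁ := hU.conj P
  have htw : ∀ (k : ℤ) (g v : G), twist p k (g⁻¹ * v * g) = twist p k v := fun k g v => by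
    rw [twist, twist]
    simp only [map_mul, map_inv]
    rw [mul_right_comm, inv_mul_cancel, one_mul]
  have hent : ∀ g, ∀ v ∈ V, ∀ i k,
      twist p (j i) v * gal v (U₁ g i k) = U₁ g i k * twist p (j k) v := fun g v hv i k => by
    have hv' : g⁻¹ * v * g ∈ V := by simpa [mul_assoc] using (‹V.Normal›).conj_mem v hv g⁻¹
    have h1 : U₁ v * galM v (U₁ g) = U₁ g * galM g (U₁ (g⁻¹ * v * g)) := by
      rw [← hU₁.cocycle, ← hU₁.cocycle]; congr 1; group
    have h2 := congrFun (congrFun h1 i) k
    rw [hP v (hVS v hv), hP _ (hVS _ hv'), galM_diagonal, Matrix.diagonal_mul,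
      Matrix.mul_diagonal, galM_apply, gal_twist, htw] at h2
    exact h2
  have hcd : ∀ (f : ℤ → Cp) g, U₁ g * (Matrix.diagonal fun i => f (j i)) =
      (Matrix.diagonal fun i => f (j i)) * U₁ g := fun f g => Matrix.ext fun i k => by
    rw [Matrix.mul_diagonal, Matrix.diagonal_mul]
    rcases eq_or_ne (j i) (j k) with h | h
    · rw [h, mul_comm]
    rw [eq_zero_of_invariant_open (x := U₁ g i k) (sub_ne_zero.2 h) V hV fun v hv => by
      rw [sub_eq_add_neg, twist_add, mul_right_comm, hent g v hv i k, mul_assoc,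
        mul_comm (twist p (j k) v), twist_inv_mul, mul_one], zero_mul, mul_zero]
  set t : G → Md := twistRep fun i => -j i
  have ht : IsRep p d t := isRep_twistRep _
  set W : G → Md := fun σ => t σ * U₁ σ
  have hW : IsRep p d W :=
    { cont := ht.cont.mul hU₁.cont
      map_one := by simp only [W]; rw [ht.map_one, hU₁.map_one, one_mul]
      cocycle := fun σ τ => by
        have hfix : galM σ (t τ) = t τ := by
          simp only [t, twistRep, galM_diagonal, gal_twist]
        simp only [W, ht.cocycle, hU₁.cocycle, map_mul, hfix, mul_assoc]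
        rw [← mul_assoc (U₁ σ) (t τ), show U₁ σ * t τ = t τ * U₁ σ from
          hcd (fun v => twist p (-v) τ) σ, mul_assoc] }
  obtain ⟨Z, hZ⟩ := exists_invariant_of_open hW hV fun v hv => by
    simp only [W, t, U₁, hP v (hVS v hv), twistRep, Matrix.diagonal_mul_diagonal, twist_inv_mul,
      Matrix.diagonal_one]
  obtain ⟨Q, w, hQ⟩ := isHodgeTate_of_untwisted hcd (Z := Z) fun σ => by
    have h2 := congrArg (twistRep j σ * ·) (FA.Sen.conj_eq_one_iff.1 (hZ σ))
    have h3 : twistRep j σ * t σ = 1 := by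
      simp only [t, twistRep, Matrix.diagonal_mul_diagonal]
      simp only [mul_comm (twist p (j _) σ), twist_inv_mul, Matrix.diagonal_one]
    simp only [W, ← mul_assoc, h3, one_mul] at h2
    exact h2
  exact ⟨P * Q, w, fun σ => by rw [← conj_conj]; exact hQ σ⟩

/-- **Potentially Hodge–Tate is Hodge–Tate.** -/
theorem isHodgeTate_iff_potentially {U : G → Md} (hU : IsRep p d U) :
    IsHodgeTate U ↔ ∃ S : Subgroup G, IsOpen (S : Set G) ∧ ∃ (P : Mdˣ) (j : d → ℤ),
      ∀ σ ∈ S, FA.Sen.conj U P σ = Matrix.diagonal fun i => twist p (j i) σ :=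
  ⟨fun ⟨P, j, hP⟩ => ⟨⊤, isOpen_univ, P, j, fun σ _ => hP σ⟩,
    fun ⟨_, hS, _, _, hP⟩ => isHodgeTate_of_open hU hS hP⟩

/-- **A representation of finite image is de Rham.** -/
theorem isDeRham_of_finite_image {ρ : G → Matrix d d ℚ_[p]} (hρ : IsQpRep p d ρ) {V : Subgroup G}
    (hV : IsOpen (V : Set G)) (h1 : ∀ v ∈ V, ρ v = 1) : IsDeRham ρ :=
  isDeRham_of_open hρ hV (X := 1) fun σ hσ => by
    rw [h1 σ hσ, Matrix.map_one _ (map_zero _) (map_one _), one_mul, Units.val_one]
    exact Matrix.map_one _ (smul_zero σ) (smul_one σ)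

/-- **A representation of finite image has a `ℂ_p`-basis of invariants.** -/
theorem exists_cp_basis_of_finite_image {ρ : G → Matrix d d ℚ_[p]} (hρ : IsQpRep p d ρ)
    {V : Subgroup G} (hV : IsOpen (V : Set G)) (h1 : ∀ v ∈ V, ρ v = 1) :
    ∃ P : Mdˣ, ∀ σ, FA.Sen.conj (cpRep ρ) P σ = Matrix.diagonal fun _ => twist p 0 σ := by
  obtain ⟨N, _, hN, hNV⟩ := exists_open_normal_subset (hV.mem_nhds V.one_mem)
  obtain ⟨P, hP⟩ := exists_invariant_of_open (isRep_cpRep hρ) hN fun v hv => by
    rw [cpRep, h1 v (hNV v hv), Matrix.map_one _ (map_zero _) (map_one _)]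
  exact ⟨P, fun σ => by rw [hP σ]; simp only [twist_zero, Matrix.diagonal_one]⟩

/-- **Finite image means admissible for `Q̄_p`.** -/
theorem finite_image_iff_algebraic_basis {ρ : G → Matrix d d ℚ_[p]} (hρ : IsQpRep p d ρ) :
    (∃ V : Subgroup G, IsOpen (V : Set G) ∧ ∀ v ∈ V, ρ v = 1) ↔
      ∃ R : (Matrix d d Ω)ˣ, ∀ g : G,
        (ρ g).map (algebraMap ℚ_[p] Ω) * (R : Matrix d d Ω).map g = R := by
  refine ⟨fun ⟨V, hV, h1⟩ => ?_, fun ⟨R, hR⟩ => ?_⟩
  · obtain ⟨N, _, hN, hNV⟩ := exists_open_normal_subset (hV.mem_nhds V.one_mem)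
    refine exists_algebraic_basis hN (fun g h => ?_) fun v hv => ?_
    · rw [hρ.map_mul, Matrix.map_mul]
      congr 1
      ext i k
      simp only [Matrix.map_apply, AlgEquiv.commutes]
    · rw [h1 v (hNV v hv), Matrix.map_one _ (map_zero _) (map_one _)]
  · set s : Set Ω := Set.range fun a : d × d => (R : Matrix d d Ω) a.1 a.2
    set E := IntermediateField.adjoin ℚ_[p] s
    have : Finite s := (Set.finite_range _).to_subtype
    have : FiniteDimensional ℚ_[p] E :=
      IntermediateField.finiteDimensional_adjoin fun y _ => Algebra.IsIntegral.isIntegral y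
    refine ⟨E.fixingSubgroup, E.fixingSubgroup_isOpen, fun v hv => ?_⟩
    have h2 : (R : Matrix d d Ω).map v = R := Matrix.ext fun i k =>
      fixed_of_le hv (IntermediateField.subset_adjoin _ _ ⟨(i, k), rfl⟩)
    have h3 := hR v
    rw [h2] at h3
    refine Matrix.map_injective (algebraMap ℚ_[p] Ω).injective ?_
    change (ρ v).map (algebraMap ℚ_[p] Ω) = (1 : Matrix d d ℚ_[p]).map (algebraMap ℚ_[p] Ω)
    rw [Matrix.map_one _ (map_zero _) (map_one _)]
    exact (Units.mul_left_inj R).1 (h3.trans (one_mul _).symm)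

end FA.PadicDescent
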