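import Fermat.Agent.PadicDescent.Functorial
import Fermat.Agent.PadicCharacters.Main

/-!
# The determinant of a Hodge–Tate representation

It is a locally algebraic character, and its exponent is the sum of the weights.
-/

set_option autoImplicit false
set_option linter.unusedSectionVars false

noncomputable section

open Finset FA.TateSen FA.BDR FA.Sen FA.PadicHodge FA.PadicChar
open scoped Matrix

namespace FA.PadicDescent

variable {p : ℕ} [hp : Fact p.Prime] {d : Type} [Fintype d] [DecidableEq d]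

local notation "Cp" => ℂ_[p]
local notation "G" => PadicAlgCl p ≃ₐ[ℚ_[p]] PadicAlgCl p

/-- The determinant character. -/
def detChar {ρ : G → Matrix d d ℚ_[p]} (hρ : IsQpRep p d ρ) : G →* ℚ_[p] where
  toFun σ := (ρ σ).det
  map_one' := by rw [hρ.map_one, Matrix.det_one]
  map_mul' σ τ := by rw [hρ.map_mul, Matrix.det_mul]

theorem continuous_detChar {ρ : G → Matrix d d ℚ_[p]} (hρ : IsQpRep p d ρ) :
    Continuous (detChar hρ) := hρ.cont.matrix_det

theorem prod_twist {I : Type*} (s : Finset I) (j : I → ℤ) (σ : G) :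
    ∏ i ∈ s, twist p (j i) σ = twist p (∑ i ∈ s, j i) σ := by
  classical
  induction s using Finset.induction with
  | empty => rw [prod_empty, sum_empty, twist_zero]
  | insert a s ha ih => rw [prod_insert ha, sum_insert ha, twist_add, ih]

/-- The determinant of a Hodge–Tate basis is one for the determinant. -/
theorem exists_conj_det {ρ : G → Matrix d d ℚ_[p]} (hρ : IsQpRep p d ρ) {P : (Matrix d d Cp)ˣ}
    {j : d → ℤ}
    (hP : ∀ σ, FA.Sen.conj (cpRep ρ) P σ = Matrix.diagonal fun i => twist p (j i) σ) :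
    ∃ Q : (Matrix Unit Unit Cp)ˣ, ∀ σ, FA.Sen.conj (cpRep (charRep (detChar hρ))) Q σ =
      Matrix.diagonal fun _ => twist p (∑ i, j i) σ := by
  set c : Cp := (P : Matrix d d Cp).det
  have hc : IsUnit c := (Matrix.isUnit_iff_isUnit_det _).1 P.isUnit
  obtain ⟨Q, hQ⟩ : IsUnit (Matrix.diagonal fun _ : Unit => c) :=
    Matrix.isUnit_diagonal.2 (Pi.isUnit_iff.2 fun _ => hc)
  refine ⟨Q, fun σ => ?_⟩
  rw [FA.Sen.conj_eq_iff, hQ, cpRep_charRep, galM_diagonal, Matrix.diagonal_mul_diagonal,
    Matrix.diagonal_mul_diagonal]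
  refine congrArg Matrix.diagonal (funext fun _ => ?_)
  have h1 := congrArg Matrix.det (FA.Sen.conj_eq_iff.1 (hP σ))
  rw [Matrix.det_mul, Matrix.det_mul, Matrix.det_diagonal, prod_twist, galM,
    ← RingHom.map_det, cpRep, ← RingHom.mapMatrix_apply, ← RingHom.map_det] at h1
  exact h1

/-- **The determinant of a Hodge–Tate representation is locally algebraic**, of exponent the sum of
the weights. -/
theorem isLocAlg_det {ρ : G → Matrix d d ℚ_[p]} (hρ : IsQpRep p d ρ) {P : (Matrix d d Cp)ˣ}
    {j : d → ℤ}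
    (hP : ∀ σ, FA.Sen.conj (cpRep ρ) P σ = Matrix.diagonal fun i => twist p (j i) σ) :
    IsLocAlg (detChar hρ) (∑ i, j i) ∧ IsDeRham (charRep (detChar hρ)) := by
  have hη := continuous_detChar hρ
  obtain ⟨Q, hQ⟩ := exists_conj_det hρ hP
  obtain ⟨k, hk⟩ := (isHodgeTate_iff_isLocAlg hη).1 ⟨Q, _, hQ⟩
  refine ⟨?_, isDeRham_of_isLocAlg hη hk⟩
  obtain ⟨s, n, hS, hn⟩ := exists_weight hη
  rw [weight_eq_of_isLocAlg hη hk hn, map_intCast] at hS
  have h1 := congrArg (Polynomial.eval (k : Cp)) (charpoly_senOperator_of_conj hS hQ)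
  rw [Matrix.charpoly_diagonal] at h1
  simp only [Fintype.prod_unique, Polynomial.eval_sub, Polynomial.eval_X, Polynomial.eval_C,
    sub_self] at h1
  rwa [← Int.cast_injective (sub_eq_zero.1 h1.symm)]

end FA.PadicDescent
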