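import Fermat.Agent.PadicHodge.Rep
import Fermat.Agent.Root.SummaryBDR
import Mathlib.RingTheory.IntegralClosure.IsIntegralClosure.Basic

/-!
# The algebraic closure of `ℚ_p` in `B_dR⁺`

By Hensel's lemma `θ` is bijective on the elements of `B_dR⁺` algebraic over `ℚ_p`, so `Q̄_p`
embeds equivariantly; the elements of `B_dR` fixed by an open subgroup are those of its fixed
field.
-/

set_option autoImplicit false
set_option linter.unusedSectionVars false

noncomputable section

open Polynomial FA.TateSen FA.BDR FA.PadicHodge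

namespace FA.PadicDescent

variable {p : ℕ} [hp : Fact p.Prime]

local notation "Cp" => ℂ_[p]
local notation "Ω" => PadicAlgCl p
local notation "G" => PadicAlgCl p ≃ₐ[ℚ_[p]] PadicAlgCl p
local notation "ι" => algebraMap (BPlus p) (BField p)

variable (p) in
/-- `B_dR⁺` as an algebra over `ℚ_p`. -/
@[instance_reducible]
def bplusAlgebra : Algebra ℚ_[p] (BPlus p) := (qpHom p).toAlgebra

attribute [local instance] bplusAlgebra

theorem algebraMap_bplus : algebraMap ℚ_[p] (BPlus p) = qpHom p := rfl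

variable (p) in
/-- `θ` over `ℚ_p`. -/
def thetaA : BPlus p →ₐ[ℚ_[p]] Cp :=
  { thetaPlus p with commutes' := thetaPlus_qpHom }

theorem thetaA_apply (b : BPlus p) : thetaA p b = thetaPlus p b := rfl

theorem eq_zero_of_integral {b : BPlus p} (hb : IsIntegral ℚ_[p] b) (h : thetaPlus p b = 0) :
    b = 0 := by
  by_contra h0
  have h1 := congrArg (thetaA p) (minpoly.aeval ℚ_[p] b)
  rw [← aeval_algHom_apply, thetaA_apply, h, map_zero, ← coeff_zero_eq_aeval_zero',
    map_eq_zero] at h1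
  exact minpoly.coeff_zero_ne_zero hb h0 h1

theorem eq_of_integral {a b : BPlus p} (ha : IsIntegral ℚ_[p] a) (hb : IsIntegral ℚ_[p] b)
    (h : thetaPlus p a = thetaPlus p b) : a = b :=
  sub_eq_zero.1 (eq_zero_of_integral (ha.sub hb) (by rw [map_sub, h, sub_self]))

theorem exists_integral_lift (x : Ω) :
    ∃ b : BPlus p, IsIntegral ℚ_[p] b ∧ thetaPlus p b = (x : Cp) := by
  have hx : IsIntegral ℚ_[p] x := Algebra.IsIntegral.isIntegral x
  set f := minpoly ℚ_[p] x
  have hev : ∀ g : ℚ_[p][X], ∀ b : BPlus p,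
      thetaPlus p ((g.map (qpHom p)).eval b) = aeval (thetaPlus p b) g := fun g b => by
    rw [eval_map, ← algebraMap_bplus, ← aeval_def, ← thetaA_apply, ← aeval_algHom_apply]
    rfl
  have hcoe : ∀ g : ℚ_[p][X], aeval (x : Cp) g = ((aeval x g : Ω) : Cp) := fun g => by
    rw [PadicComplex.coe_eq, PadicComplex.coe_eq, aeval_algebraMap_apply]
  obtain ⟨c, hc⟩ := thetaPlus_surjective (p := p) (x : Cp)
  obtain ⟨-, -, -, -, -, hcomp⟩ := FA.Summary.bdr_plus_dvr p
  obtain ⟨a, ha, ha'⟩ := HenselianRing.is_henselian (I := RingHom.ker (thetaPlus p))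
    (f.map (qpHom p)) ((minpoly.monic hx).map _) c
    (by rw [RingHom.mem_ker, hev, hc, hcoe, minpoly.aeval, PadicComplex.coe_eq, map_zero])
    (by
      refine IsUnit.map _ (isUnit_iff_thetaPlus.2 ?_)
      rw [derivative_map, hev, hc, hcoe, PadicComplex.coe_eq]
      exact (map_ne_zero_iff _ (algebraMap Ω Cp).injective).2
        ((minpoly.irreducible hx).separable.aeval_derivative_ne_zero (minpoly.aeval _ _)))
  rw [RingHom.mem_ker, map_sub, sub_eq_zero, hc] at ha'
  refine ⟨a, ⟨f, minpoly.monic hx, ?_⟩, ha'⟩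
  rwa [algebraMap_bplus, ← eval_map]

/-- The algebraic lift. -/
def embFun (x : Ω) : BPlus p := (exists_integral_lift x).choose

theorem embFun_spec (x : Ω) :
    IsIntegral ℚ_[p] (embFun x) ∧ thetaPlus p (embFun x) = (x : Cp) :=
  (exists_integral_lift x).choose_spec

theorem embFun_eq {x : Ω} {b : BPlus p} (hb : IsIntegral ℚ_[p] b)
    (h : thetaPlus p b = (x : Cp)) : embFun x = b :=
  eq_of_integral (embFun_spec x).1 hb ((embFun_spec x).2.trans h.symm)

variable (p) in
/-- **`Q̄_p` in `B_dR⁺`**: the section of `θ` over `ℚ_p`. -/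
def emb : Ω →+* BPlus p where
  toFun := embFun
  map_one' := embFun_eq isIntegral_one (by rw [map_one, PadicComplex.coe_eq, map_one])
  map_zero' := embFun_eq isIntegral_zero (by rw [map_zero, PadicComplex.coe_eq, map_zero])
  map_mul' x y := embFun_eq ((embFun_spec x).1.mul (embFun_spec y).1)
    (by rw [map_mul, (embFun_spec x).2, (embFun_spec y).2]
        simp only [PadicComplex.coe_eq, map_mul])
  map_add' x y := embFun_eq ((embFun_spec x).1.add (embFun_spec y).1)
    (by rw [map_add, (embFun_spec x).2, (embFun_spec y).2]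
        simp only [PadicComplex.coe_eq, map_add])

theorem thetaPlus_emb (x : Ω) : thetaPlus p (emb p x) = (x : Cp) := (embFun_spec x).2

theorem isIntegral_emb (x : Ω) : IsIntegral ℚ_[p] (emb p x) := (embFun_spec x).1

theorem emb_algebraMap (c : ℚ_[p]) : emb p (algebraMap ℚ_[p] Ω c) = qpHom p c :=
  embFun_eq isIntegral_algebraMap (by
    rw [thetaPlus_qpHom, IsScalarTower.algebraMap_apply ℚ_[p] Ω Cp,
      ← PadicComplex.coe_eq])

theorem isIntegral_smul {b : BPlus p} (hb : IsIntegral ℚ_[p] b) (σ : G) :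
    IsIntegral ℚ_[p] (σ • b) :=
  hb.map ({ MulSemiringAction.toRingHom G (BPlus p) σ with
    commutes' := fun c => smul_qpHom σ c } : BPlus p →ₐ[ℚ_[p]] BPlus p)

theorem smul_emb (σ : G) (x : Ω) : σ • emb p x = emb p (σ x) :=
  (embFun_eq (isIntegral_smul (isIntegral_emb x) σ)
    (by rw [smul_bplus_def, thetaPlus_bplusGal, thetaPlus_emb, gal_coe])).symm

/-- **The section is unique** among those extending the structure map of `ℚ_p`. -/
theorem emb_unique (ψ : Ω →+* BPlus p) (h : ∀ c, ψ (algebraMap ℚ_[p] Ω c) = qpHom p c)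
    (hθ : ∀ x, thetaPlus p (ψ x) = (x : Cp)) : ψ = emb p :=
  RingHom.ext fun x => (embFun_eq ((Algebra.IsIntegral.isIntegral x).map
    ({ ψ with commutes' := h } : Ω →ₐ[ℚ_[p]] BPlus p)) (hθ x)).symm

theorem emb_injective : Function.Injective (emb p) := (emb p).injective

/-- An element of `ℂ_p` fixed by an open subgroup is algebraic. -/
theorem exists_coe_of_fixed (U : Subgroup G) (hU : IsOpen (U : Set G)) {z : Cp}
    (hz : ∀ σ ∈ U, gal σ z = z) : ∃ x : Ω, (∀ σ ∈ U, σ x = x) ∧ (x : Cp) = z := by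
  set E := IntermediateField.fixedField U
  have hEU : E.fixingSubgroup = U := InfiniteGalois.fixingSubgroup_fixedField
    ⟨U, Subgroup.isClosed_of_isOpen U hU⟩
  have : FiniteDimensional ℚ_[p] E := (InfiniteGalois.isOpen_iff_finite E).1 (by rw [hEU]; exact hU)
  have hmem := (Fermat.Agent.AxSenTate.fixed_completion_subgroup_iff
    (fun σ x => norm_gal σ x) U z).1 fun σ hσ => by rw [← gal_apply]; exact hz σ hσ
  set L : Ω →ₗ[ℚ_[p]] Cp := (IsScalarTower.toAlgHom ℚ_[p] Ω Cp).toLinearMap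
  have hcl : IsClosed ((E.toSubmodule.map L : Submodule ℚ_[p] Cp) : Set Cp) := by
    have : FiniteDimensional ℚ_[p] E.toSubmodule := this
    exact Submodule.closed_of_finiteDimensional _
  have hsub : closure (((↑) : Ω → Cp) '' (E : Set Ω)) ⊆
      ((E.toSubmodule.map L : Submodule ℚ_[p] Cp) : Set Cp) :=
    closure_minimal (by rintro _ ⟨x, hx, rfl⟩; exact ⟨x, hx, rfl⟩) hcl
  obtain ⟨x, hx, rfl⟩ := hsub hmem
  exact ⟨x, fun σ hσ => hx ⟨σ, hσ⟩, rfl⟩

/-- **The invariants of an open subgroup in `B_dR`** are the image of its fixed field. -/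
theorem bField_fixed_iff (U : Subgroup G) (hU : IsOpen (U : Set G)) (z : BField p) :
    (∀ σ ∈ U, σ • z = z) ↔ ∃ x : Ω, (∀ σ ∈ U, σ x = x) ∧ ι (emb p x) = z := by
  refine ⟨fun hz => ?_, fun ⟨x, hx, he⟩ σ hσ => by
    rw [← he, smul_algebraMap_bfield, smul_emb, hx σ hσ]⟩
  obtain ⟨y, hy, rfl⟩ := exists_bPlus_of_fixed U hU hz
  obtain ⟨x, hx, hxy⟩ := exists_coe_of_fixed U hU (z := thetaPlus p y) fun σ hσ => by
    rw [← thetaPlus_bplusGal, ← smul_bplus_def, hy σ hσ]
  refine ⟨x, hx, congrArg ι (sub_eq_zero.1 (eq_zero_of_fixed_of_thetaPlus U hU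
    (fun σ hσ => ?_) ?_))⟩
  · rw [smul_sub, hy σ hσ, smul_emb, hx σ hσ]
  · rw [map_sub, thetaPlus_emb, hxy, sub_self]

end FA.PadicDescent
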